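import Fermat.Agent.LT.T7.H568.IdeleSpec
import Fermat.Agent.LT.T1.H309.AdNorm

/-!
# Row LT, tower T7, leaf T7.14.6c.5 `NormMeasC568` (registry 1821; helper319)

OFF-MAIN.  Imports (byte-identical copies) `LT/T7/H568/IdeleSpec.lean` (helper568@4cfb36664) and
`LT/T1/H309/AdNorm.lean` (helper309, sha256 `d3463a0f…`, the file of the closed tower T1,
helper54@272e43fd2).  No definition.

`normMeasC319 K : H568.NormMeasC568 K`: `{y : Y ≤ |y|_𝔸}` is a Borel set of the idele group.

Proof.  The idele norm is CONTINUOUS on the idele group (`continuous_adNorm309`, tower T1; the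
modules `T1.adNorm` and `T5.adNorm` are the same expression), so the set is closed.
-/

set_option autoImplicit false
set_option linter.style.haveILetI false

open IsDedekindDomain NumberField MeasureTheory
open Fermat.Agent.LT.H556.A0

noncomputable section

namespace Fermat.Agent.LT.T7.H319

variable (K : Type) [Field K] [NumberField K]

/-- The module of tower T5 is the module of tower T1. -/
theorem adNorm_T5_eq_T1_319 (x : Adl K) :
    Fermat.Agent.LT.T5.adNorm x = Fermat.Agent.LT.T1.adNorm K x := rfl

/-- The idele norm (in the form of tower T5) is continuous on the idele group. -/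
theorem continuous_adNorm_T5_319 :
    Continuous fun y : (Adl K)ˣ => Fermat.Agent.LT.T5.adNorm (y : Adl K) :=
  Fermat.Agent.LT.T1.H309.continuous_adNorm309 K

/-- `{y : Y ≤ |y|_𝔸}` is closed in the idele group. -/
theorem isClosed_le_adNorm319 (Y : ℝ) :
    IsClosed {y : (Adl K)ˣ | Y ≤ Fermat.Agent.LT.T5.adNorm (y : Adl K)} :=
  isClosed_le continuous_const (continuous_adNorm_T5_319 K)

/-- **T7.14.6c.5 `NormMeasC568`** (verbatim, `LT/T7/H568/IdeleSpec.lean`). -/
theorem normMeasC319 : Fermat.Agent.LT.T7.H568.NormMeasC568 K := by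
  letI : MeasurableSpace (Adl K)ˣ := borel (Adl K)ˣ
  haveI : BorelSpace (Adl K)ˣ := ⟨rfl⟩
  intro Y
  exact (isClosed_le_adNorm319 K Y).measurableSet

end Fermat.Agent.LT.T7.H319

end
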